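import Fermat.Agent.LT.T6.H830.InjSpec

/-!
# Row LT, tower T6, leaf T6.21.7 `CentAvgOfTorusC` (helper792)

OFF-MAIN.  Spec: `Fermat/Agent/LT/T6/H830/InjSpec.lean` (helper830@4a7e5e87a), imported verbatim.

`centAvgOfTorusC792 : H830.CentAvgOfTorusC`: if `torT f t = ∫_ζ f (bR ζ t 0) dζ` vanishes for
`t ≥ 0`, the central average `∫_{r > 0} f (r g) dr / r` vanishes.

Proof.  `r = e^u` turns the central average into `∫_u f (e^u g) du` (no integrability is
needed for the change of variables).  If `det g ≤ 0` the integrand vanishes (`IsArchTestR.pos`).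
If `det g > 0`, `g = k_α (bR ζ₀ t 0) k_β` with `t ≥ 0` (Cartan), `e^u` is central,
`e^u · bR ζ₀ t 0 = bR (ζ₀ + 2u) t 0`, and the weight gives
`f (e^u g) = χ(k_α)⁻¹ χ(k_β)⁻¹ f (bR (ζ₀ + 2u) t 0)`; finally
`∫_u h (ζ₀ + 2u) du = (1/2) ∫ h` for every `h`.
-/

set_option autoImplicit false

open scoped Matrix
open MeasureTheory

noncomputable section

namespace Fermat.Agent.LT.T6.H792

open Fermat.Agent.LT.T6 Fermat.Agent.LT.T6.H830

/-- The rotations are in `SO(2)`. -/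
theorem inSO2_rotR792 (θ : ℝ) : InSO2 (rotR θ) := by
  have h := Real.cos_sq_add_sin_sq θ
  constructor
  · rw [coe_rotR830]
    ext i j
    fin_cases i <;> fin_cases j <;>
      simp [Matrix.mul_apply, Fin.sum_univ_two] <;> nlinarith [h]
  · rw [coe_rotR830, Matrix.det_fin_two_of]
    nlinarith [h]

/-- Scalar matrices are central. -/
theorem scalar_mul_comm792 (z y : GL (Fin 2) ℝ) (r : ℝ)
    (hz : (z : Matrix (Fin 2) (Fin 2) ℝ) = Matrix.diagonal (fun _ => r)) : z * y = y * z := by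
  apply Units.ext
  show (z : Matrix (Fin 2) (Fin 2) ℝ) * (y : Matrix (Fin 2) (Fin 2) ℝ)
    = (y : Matrix (Fin 2) (Fin 2) ℝ) * (z : Matrix (Fin 2) (Fin 2) ℝ)
  rw [hz, ← Matrix.smul_one_eq_diagonal, Matrix.smul_mul, Matrix.mul_smul, one_mul, mul_one]

/-- `e^u · bR ζ t 0 = bR (ζ + 2u) t 0`. -/
theorem scalar_mul_bR792 (z : GL (Fin 2) ℝ) (u ζ t : ℝ)
    (hz : (z : Matrix (Fin 2) (Fin 2) ℝ) = Matrix.diagonal (fun _ => Real.exp u)) :
    z * bR ζ t 0 = bR (ζ + 2 * u) t 0 := by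
  apply Units.ext
  show (z : Matrix (Fin 2) (Fin 2) ℝ) * ((bR ζ t 0 : GL (Fin 2) ℝ) : Matrix (Fin 2) (Fin 2) ℝ)
    = ((bR (ζ + 2 * u) t 0 : GL (Fin 2) ℝ) : Matrix (Fin 2) (Fin 2) ℝ)
  rw [hz, coe_bR830, coe_bR830]
  have e1 : Real.exp u * Real.exp ((ζ + t) / 2) = Real.exp ((ζ + 2 * u + t) / 2) := by
    rw [← Real.exp_add]; congr 1; ring
  have e2 : Real.exp u * Real.exp ((ζ - t) / 2) = Real.exp ((ζ + 2 * u - t) / 2) := by
    rw [← Real.exp_add]; congr 1; ring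
  ext i j
  fin_cases i <;> fin_cases j <;> simp [Matrix.mul_apply, Fin.sum_univ_two, e1, e2]

/-- `∫_u h (ζ₀ + 2u) du = (1/2) ∫ h` (no integrability needed). -/
theorem integral_affine792 (h : ℝ → ℂ) (ζ0 : ℝ) :
    (∫ u : ℝ, h (ζ0 + 2 * u)) = (1 / 2 : ℂ) * ∫ ζ : ℝ, h ζ := by
  have h3 := Measure.integral_comp_mul_left (fun y => h (ζ0 + y)) (2 : ℝ)
  have h4 := integral_add_left_eq_self (μ := (volume : Measure ℝ)) (fun y => h y) ζ0
  rw [h3, h4, Complex.real_smul]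
  congr 1
  rw [abs_of_pos (by norm_num : (0 : ℝ) < 2⁻¹)]
  push_cast
  norm_num

/-- The substitution `r = e^u` in the central average. -/
theorem centAvg_exp792 (F : ℝ → ℂ) :
    (∫ r in Set.Ioi (0 : ℝ), F r / (r : ℂ)) = ∫ u : ℝ, F (Real.exp u) := by
  have key := integral_image_eq_integral_abs_deriv_smul (s := Set.univ) (f := Real.exp)
    (f' := Real.exp) MeasurableSet.univ
    (fun x _ => (Real.hasDerivAt_exp x).hasDerivWithinAt)
    (fun x _ y _ hxy => Real.exp_injective hxy) (fun r => F r / (r : ℂ))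
  rw [Set.image_univ, Real.range_exp, Measure.restrict_univ] at key
  rw [key]
  refine integral_congr_ae (Filter.Eventually.of_forall fun u => ?_)
  have hu : ((Real.exp u : ℝ) : ℂ) ≠ 0 := Complex.ofReal_ne_zero.2 (Real.exp_ne_zero u)
  show |Real.exp u| • (F (Real.exp u) / ((Real.exp u : ℝ) : ℂ)) = F (Real.exp u)
  rw [abs_of_pos (Real.exp_pos u), Complex.real_smul]
  field_simp

/-- **T6.21.7 CENT-AVG.** -/
theorem centAvgOfTorusC792 : CentAvgOfTorusC := by
  intro hC n _ f hf htor Z hZ g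
  rw [centAvg_exp792 (fun r => f (Z r * g))]
  by_cases hdet : 0 < (g : Matrix (Fin 2) (Fin 2) ℝ).det
  · obtain ⟨ζ0, α, β, t, ht, hg⟩ := hC g hdet
    have key : ∀ u : ℝ, f (Z (Real.exp u) * g)
        = ((wtChar n (rotR α))⁻¹ * (wtChar n (rotR β))⁻¹) * f (bR (ζ0 + 2 * u) t 0) := by
      intro u
      have hzu := hZ (Real.exp u) (Real.exp_pos u)
      have e : Z (Real.exp u) * g = rotR α * bR (ζ0 + 2 * u) t 0 * rotR β := by
        rw [hg, ← scalar_mul_bR792 _ u ζ0 t hzu, ← mul_assoc, ← mul_assoc,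
          scalar_mul_comm792 _ (rotR α) _ hzu, mul_assoc (rotR α)]
      rw [e, hf.right _ _ (inSO2_rotR792 β), hf.left _ _ (inSO2_rotR792 α)]
      ring
    simp_rw [key]
    rw [integral_const_mul, integral_affine792 (fun ζ => f (bR ζ t 0)) ζ0]
    have h0 : (∫ ζ : ℝ, f (bR ζ t 0)) = 0 := htor t ht
    rw [h0, mul_zero, mul_zero]
  · have hz : ∀ u : ℝ, f (Z (Real.exp u) * g) = 0 := by
      intro u
      by_contra hne
      have hp := hf.pos _ hne
      have hzu := hZ (Real.exp u) (Real.exp_pos u)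
      have hm : ((Z (Real.exp u) * g : GL (Fin 2) ℝ) : Matrix (Fin 2) (Fin 2) ℝ)
          = (Z (Real.exp u) : Matrix (Fin 2) (Fin 2) ℝ) * (g : Matrix (Fin 2) (Fin 2) ℝ) := rfl
      rw [hm, Matrix.det_mul, hzu, Matrix.det_diagonal, Fin.prod_univ_two] at hp
      have hq : 0 < Real.exp u * Real.exp u := mul_pos (Real.exp_pos u) (Real.exp_pos u)
      exact hdet ((mul_pos_iff_of_pos_left hq).1 hp)
    simp [hz]

end Fermat.Agent.LT.T6.H792

end
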